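/-
IHARA / B / (q3) (lead), part 1: **an automorphism fixing the coordinate preserves the Gauss ring**
when the residue degree equals the generic degree.

`d : TbBase K F k Fb`, `x ∈ 𝒪` with transcendental residue `x̄`, `[F : K(x)] = [F̄ : k(x̄)] = n`,
and Gauss elements with nonzero residue are Gauss units (`IhbtUnit`).  Lift a `k(x̄)`-basis `ω̄_i`
of `F̄` to `ω_i ∈ 𝒪`.  Every `f ∈ 𝒪` is `∑ c_i ω_i` with `c_i ∈ 𝒪 ∩ K(x)`; so `𝒪` is a finite module
over `𝒪 ∩ K(x)`, hence integral over it; `𝒪` is a valuation ring, hence integrally closed; an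
automorphism `g` of `F / K(x)` therefore maps `𝒪` into `𝒪`.
-/
import Mathlib
import Fermat.Agent.Lib.T1.Core.DegLe

set_option autoImplicit false
set_option linter.style.haveILetI false
set_option linter.unusedSectionVars false
set_option linter.unusedVariables false

namespace Fermat.Agent.Ihara

open IntermediateField Polynomial Fermat.Agent.T1

variable {K F k Fb : Type*} [Field K] [Field F] [Algebra K F] [Field k] [Field Fb] [Algebra k Fb]
variable (d : TbBase K F k Fb)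

/-- Gauss elements with nonzero residue are Gauss units -/
def IhbtUnit : Prop := ∀ (f : F) (hf : f ∈ d.Ov), d.res ⟨f, hf⟩ ≠ 0 → f⁻¹ ∈ d.Ov

variable {d}

theorem ihbt_res_ne_zero_of_inv_mem {f : F} (hf : f ∈ d.Ov) (hf0 : f ≠ 0) (hfi : f⁻¹ ∈ d.Ov) :
    d.res ⟨f, hf⟩ ≠ 0 := by
  intro h0
  have h1 : d.res ⟨f, hf⟩ * d.res ⟨f⁻¹, hfi⟩ = 1 := by
    rw [← map_mul]
    have : (⟨f, hf⟩ : ↥d.Ov) * ⟨f⁻¹, hfi⟩ = 1 := Subtype.ext (mul_inv_cancel₀ hf0)
    rw [this, map_one]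
  rw [h0, zero_mul] at h1
  exact zero_ne_one h1

theorem ihbt_res_eq_zero_iff (hV : IhbtUnit d) {f : F} (hf : f ∈ d.Ov) (hf0 : f ≠ 0) :
    d.res ⟨f, hf⟩ = 0 ↔ f⁻¹ ∉ d.Ov := by
  constructor
  · intro h0 hfi
    exact ihbt_res_ne_zero_of_inv_mem hf hf0 hfi h0
  · intro hfi
    by_contra h0
    exact hfi (hV f hf h0)

/-- the Gauss ring is a valuation ring -/
theorem ihbt_mem_or_inv_mem (hV : IhbtUnit d) (f : F) : f ∈ d.Ov ∨ f⁻¹ ∈ d.Ov := by
  rcases eq_or_ne f 0 with rfl | hf0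
  · exact Or.inl d.Ov.zero_mem
  obtain ⟨c, hc0, hcf, hres⟩ := d.normalize f hf0
  have hinv : (c • f)⁻¹ ∈ d.Ov := hV _ hcf hres
  rcases d.A.mem_or_inv_mem c with hc | hc
  · right
    have h1 := d.smul_mem ⟨c, hc⟩ hinv
    have h2 : ((⟨c, hc⟩ : ↥d.A) : K) • (c • f)⁻¹ = f⁻¹ := by
      show c • (c • f)⁻¹ = f⁻¹
      have hc1 : algebraMap K F c ≠ 0 := (_root_.map_ne_zero _).mpr hc0
      rw [Algebra.smul_def, Algebra.smul_def, mul_inv_rev, ← mul_assoc, mul_comm _ f⁻¹, mul_assoc,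
        mul_inv_cancel₀ hc1, mul_one]
    rwa [h2] at h1
  · left
    have h1 := d.smul_mem ⟨c⁻¹, hc⟩ hcf
    have h2 : ((⟨c⁻¹, hc⟩ : ↥d.A) : K) • (c • f) = f := by
      show c⁻¹ • (c • f) = f
      rw [smul_smul, inv_mul_cancel₀ hc0, one_smul]
    rwa [h2] at h1

/-- the Gauss ring as a valuation subring -/
def ihbtV (hV : IhbtUnit d) : ValuationSubring F :=
  { d.Ov with mem_or_inv_mem' := ihbt_mem_or_inv_mem hV }

theorem mem_ihbtV (hV : IhbtUnit d) (f : F) : f ∈ ihbtV hV ↔ f ∈ d.Ov := Iff.rfl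

/-- an element integral over a subring of the Gauss ring lies in the Gauss ring -/
theorem ihbt_mem_of_isIntegral (hV : IhbtUnit d) {R : Type*} [CommRing R] [Algebra R F]
    (hR : ∀ r : R, algebraMap R F r ∈ d.Ov) {f : F} (hf : IsIntegral R f) : f ∈ d.Ov := by
  obtain ⟨p, hmonic, hp⟩ := hf
  let φ : R →+* ↥(ihbtV hV) := (algebraMap R F).codRestrict (ihbtV hV).toSubring hR
  have hint : IsIntegral ↥(ihbtV hV) f := by
    refine ⟨p.map φ, hmonic.map φ, ?_⟩
    rw [Polynomial.eval₂_map]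
    exact hp
  obtain ⟨g, hg⟩ := IsIntegrallyClosed.isIntegral_iff.mp hint
  rw [← hg]
  exact g.2

/-- the constants of the Gauss ring are the elements of `A` -/
theorem ihbt_const_mem (hV : IhbtUnit d) {c : K} (hc : algebraMap K F c ∈ d.Ov) : c ∈ d.A := by
  by_contra hcA
  have hc0 : c ≠ 0 := fun h => hcA (h ▸ d.A.zero_mem)
  have hci : c⁻¹ ∈ d.A := (d.A.mem_or_inv_mem c).resolve_left hcA
  have hmax : (⟨c⁻¹, hci⟩ : ↥d.A) ∈ IsLocalRing.maximalIdeal ↥d.A := by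
    rw [IsLocalRing.mem_maximalIdeal, mem_nonunits_iff]
    intro hu
    obtain ⟨b, hb⟩ := isUnit_iff_exists_inv.mp hu
    have hb' : c⁻¹ * (b : K) = 1 := congrArg Subtype.val hb
    have : (b : K) = c := by
      rw [← mul_one c, ← hb', ← mul_assoc, mul_inv_cancel₀ hc0, one_mul]
    exact hcA (this ▸ b.2)
  have h0 : d.resA ⟨c⁻¹, hci⟩ = 0 := (d.resA_eq_zero_iff _).mpr hmax
  have h1 := d.res_algebraMap ⟨c⁻¹, hci⟩
  rw [h0, map_zero] at h1
  have hne := ihbt_res_ne_zero_of_inv_mem (d.algebraMap_mem ⟨c⁻¹, hci⟩)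
    ((_root_.map_ne_zero _).mpr (inv_ne_zero hc0)) (by
      show (algebraMap K F c⁻¹)⁻¹ ∈ d.Ov
      rw [map_inv₀, inv_inv]
      exact hc)
  exact hne h1

section Rel

variable {ι : Type*} [Fintype ι] {x : F} (hxO : x ∈ d.Ov)

/-- a `K[x]`-relation between lifts of a `k(x̄)`-independent family and one more Gauss element can
be scaled so that the coefficient of the extra element has a nonzero reduction -/
theorem ihbt_scale_rel (hxb : Transcendental k (d.res ⟨x, hxO⟩)) (ω : ι → ↥d.Ov)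
    (hli : LinearIndependent ↥k⟮d.res ⟨x, hxO⟩⟯ (fun i => d.res (ω i)))
    (f : ↥d.Ov) (ps : Option ι → Polynomial K) (hps : ∃ o, ps o ≠ 0)
    (hrel : ∑ i, Polynomial.aeval x (ps (some i)) * ((ω i : ↥d.Ov) : F)
      + Polynomial.aeval x (ps none) * (f : F) = 0) :
    ∃ (a : K) (Ps : Option ι → Polynomial ↥d.A), a ≠ 0 ∧
      (∀ o, (Ps o).map d.A.subtype = Polynomial.C a * ps o) ∧ (Ps none).map d.resA ≠ 0 := by
  classical
  obtain ⟨a, Ps, ha0, hPs, o₁, ho₁⟩ := d.exists_scale_polys ps hps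
  refine ⟨a, Ps, ha0, hPs, fun hQ => ?_⟩
  set xb := d.res ⟨x, hxO⟩ with hxbdef
  have h1 : ∀ o, ((Polynomial.eval₂ d.toOv (⟨x, hxO⟩ : ↥d.Ov) (Ps o) : ↥d.Ov) : F) =
      algebraMap K F a * Polynomial.aeval x (ps o) := by
    intro o
    rw [d.coe_eval₂_toOv, hPs o, map_mul, Polynomial.aeval_C]
  have hrelO : ∑ i, Polynomial.eval₂ d.toOv (⟨x, hxO⟩ : ↥d.Ov) (Ps (some i)) * ω i
      + Polynomial.eval₂ d.toOv (⟨x, hxO⟩ : ↥d.Ov) (Ps none) * f = 0 := by
    apply Subtype.ext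
    rw [Subring.coe_add, AddSubmonoidClass.coe_finsetSum, Subring.coe_mul, h1]
    have h2 : ∀ i, ((Polynomial.eval₂ d.toOv (⟨x, hxO⟩ : ↥d.Ov) (Ps (some i)) * ω i : ↥d.Ov) : F) =
        algebraMap K F a * (Polynomial.aeval x (ps (some i)) * ((ω i : ↥d.Ov) : F)) := by
      intro i
      rw [Subring.coe_mul, h1, mul_assoc]
    rw [Finset.sum_congr rfl fun i _ => h2 i, ← Finset.mul_sum, mul_assoc, ← mul_add, hrel,
      mul_zero]
    rfl
  have hrelb := congrArg d.res hrelO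
  rw [map_add, map_sum, map_zero, map_mul, d.res_eval₂_toOv, hQ, map_zero, zero_mul,
    add_zero] at hrelb
  have h2 : ∀ i, d.res (Polynomial.eval₂ d.toOv (⟨x, hxO⟩ : ↥d.Ov) (Ps (some i)) * ω i) =
      (⟨Polynomial.aeval xb ((Ps (some i)).map d.resA),
        (Algebra.adjoin_le_iff.mpr (Set.singleton_subset_iff.mpr
          (mem_adjoin_simple_self k xb)) : Algebra.adjoin k {xb} ≤ (k⟮xb⟯).toSubalgebra)
          (by
            rw [Algebra.adjoin_singleton_eq_range_aeval]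
            exact ⟨_, rfl⟩)⟩ : ↥k⟮xb⟯) • d.res (ω i) := by
    intro i
    rw [map_mul, d.res_eval₂_toOv]
    rfl
  rw [Finset.sum_congr rfl fun i _ => h2 i] at hrelb
  have h3 := Fintype.linearIndependent_iff.mp hli _ hrelb
  have h4 : ∀ i, (Ps (some i)).map d.resA = 0 := by
    intro i
    have h5 : Polynomial.aeval xb ((Ps (some i)).map d.resA) = 0 := congrArg Subtype.val (h3 i)
    exact (transcendental_iff.mp hxb) _ h5
  cases o₁ with
  | none => exact ho₁ hQ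
  | some i => exact ho₁ (h4 i)

open scoped IntermediateField.algebraAdjoinAdjoin in
/-- **coordinates**: if the lifts `ω_i` of a `k(x̄)`-independent family are as many as the degree
`[F : K(x)]`, every Gauss element is a combination of the `ω_i` with coefficients in `𝒪 ∩ K(x)` -/
theorem ihbt_exists_coord (hV : IhbtUnit d) (hxb : Transcendental k (d.res ⟨x, hxO⟩))
    [FiniteDimensional ↥K⟮x⟯ F] (ω : ι → ↥d.Ov)
    (hli : LinearIndependent ↥k⟮d.res ⟨x, hxO⟩⟯ (fun i => d.res (ω i)))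
    (hcard : Fintype.card ι = Module.finrank ↥K⟮x⟯ F) (f : ↥d.Ov) :
    ∃ c : ι → F, (∀ i, c i ∈ d.Ov ∧ c i ∈ K⟮x⟯) ∧ (f : F) = ∑ i, c i * ((ω i : ↥d.Ov) : F) := by
  classical
  set y : Option ι → F := fun o => o.elim (f : F) (fun i => ((ω i : ↥d.Ov) : F)) with hy
  have hnli : ¬ LinearIndependent ↥K⟮x⟯ y := by
    intro h
    have := h.fintype_card_le_finrank
    rw [Fintype.card_option, hcard] at this
    omega
  rw [← LinearIndependent.iff_fractionRing ↥(Algebra.adjoin K {x}) ↥K⟮x⟯,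
    Fintype.linearIndependent_iff] at hnli
  push Not at hnli
  obtain ⟨g, hg0, o₀, hgo₀⟩ := hnli
  have hpoly : ∀ o, ∃ p : Polynomial K,
      Polynomial.aeval x p = ((g o : ↥(Algebra.adjoin K {x})) : F) := by
    intro o
    have h : ((g o : ↥(Algebra.adjoin K {x})) : F) ∈ (Polynomial.aeval (R := K) x).range := by
      rw [← Algebra.adjoin_singleton_eq_range_aeval]
      exact (g o).2
    exact h
  choose ps hps using hpoly
  have hps0 : ∃ o, ps o ≠ 0 := by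
    refine ⟨o₀, fun h => hgo₀ ?_⟩
    apply Subtype.ext
    rw [← hps o₀, h, map_zero]
    rfl
  have hrel : ∑ i, Polynomial.aeval x (ps (some i)) * ((ω i : ↥d.Ov) : F)
      + Polynomial.aeval x (ps none) * (f : F) = 0 := by
    rw [Fintype.sum_option] at hg0
    rw [add_comm]
    have h1 : ∀ o, g o • y o = Polynomial.aeval x (ps o) * y o := by
      intro o
      rw [hps o]
      rfl
    rw [h1 none, Finset.sum_congr rfl fun i _ => h1 (some i)] at hg0
    exact hg0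
  obtain ⟨a, Ps, ha0, hPs, hQ⟩ := ihbt_scale_rel hxO hxb ω hli f ps hps0 hrel
  set u : ↥d.Ov := Polynomial.eval₂ d.toOv (⟨x, hxO⟩ : ↥d.Ov) (Ps none) with hu
  have hures : d.res u ≠ 0 := by
    rw [hu, d.res_eval₂_toOv]
    intro h0
    exact hQ ((transcendental_iff.mp hxb) _ h0)
  have hui : ((u : ↥d.Ov) : F)⁻¹ ∈ d.Ov := hV _ u.2 hures
  have hu0 : ((u : ↥d.Ov) : F) ≠ 0 := by
    intro h0
    apply hures
    have : u = 0 := Subtype.ext h0
    rw [this, map_zero]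
  have h1 : ∀ o, ((Polynomial.eval₂ d.toOv (⟨x, hxO⟩ : ↥d.Ov) (Ps o) : ↥d.Ov) : F) =
      algebraMap K F a * Polynomial.aeval x (ps o) := by
    intro o
    rw [d.coe_eval₂_toOv, hPs o, map_mul, Polynomial.aeval_C]
  have hmemKx : ∀ p : Polynomial K, Polynomial.aeval x p ∈ K⟮x⟯ := by
    intro p
    have h2 : Polynomial.aeval x p ∈ Algebra.adjoin K {x} := Polynomial.aeval_mem_adjoin_singleton K x
    exact IntermediateField.algebra_adjoin_le_adjoin K _ h2
  refine ⟨fun i => -(((Polynomial.eval₂ d.toOv (⟨x, hxO⟩ : ↥d.Ov) (Ps (some i)) : ↥d.Ov) : F)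
    * ((u : ↥d.Ov) : F)⁻¹), fun i => ⟨?_, ?_⟩, ?_⟩
  · exact d.Ov.neg_mem (d.Ov.mul_mem (Subtype.mem _) hui)
  · refine neg_mem (mul_mem ?_ (inv_mem ?_))
    · rw [h1]
      exact mul_mem (K⟮x⟯.algebraMap_mem a) (hmemKx _)
    · rw [hu, h1]
      exact mul_mem (K⟮x⟯.algebraMap_mem a) (hmemKx _)
  · have ha1 : algebraMap K F a ≠ 0 := (_root_.map_ne_zero _).mpr ha0
    have h3 : ((u : ↥d.Ov) : F) * (f : F) =
        -∑ i, ((Polynomial.eval₂ d.toOv (⟨x, hxO⟩ : ↥d.Ov) (Ps (some i)) : ↥d.Ov) : F)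
          * ((ω i : ↥d.Ov) : F) := by
      rw [eq_neg_iff_add_eq_zero, add_comm, hu, h1]
      have h4 : ∀ i, ((Polynomial.eval₂ d.toOv (⟨x, hxO⟩ : ↥d.Ov) (Ps (some i)) : ↥d.Ov) : F)
          * ((ω i : ↥d.Ov) : F) =
          algebraMap K F a * (Polynomial.aeval x (ps (some i)) * ((ω i : ↥d.Ov) : F)) := by
        intro i
        rw [h1, mul_assoc]
      rw [Finset.sum_congr rfl fun i _ => h4 i, ← Finset.mul_sum, mul_assoc, ← mul_add, hrel,
        mul_zero]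
    have h5 : (f : F) = ((u : ↥d.Ov) : F)⁻¹ * (((u : ↥d.Ov) : F) * (f : F)) := by
      rw [← mul_assoc, inv_mul_cancel₀ hu0, one_mul]
    rw [h5, h3, mul_neg, Finset.mul_sum, ← Finset.sum_neg_distrib]
    refine Finset.sum_congr rfl fun i _ => ?_
    ring

end Rel

section Stable

variable {x : F} (hxO : x ∈ d.Ov)

/-- a `K`-automorphism fixing `x` fixes `K(x)` pointwise -/
theorem ihbt_fix_adjoin (g : F ≃ₐ[K] F) (hgx : g x = x) {y : F} (hy : y ∈ K⟮x⟯) : g y = y := by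
  obtain ⟨r, s, hrs⟩ := (IntermediateField.mem_adjoin_simple_iff K y).mp hy
  have h1 : ∀ p : Polynomial K, g (Polynomial.aeval x p) = Polynomial.aeval x p := by
    intro p
    have := Polynomial.aeval_algHom_apply (g : F →ₐ[K] F) x p
    rw [show (g : F →ₐ[K] F) x = x from hgx] at this
    exact this.symm
  rw [hrs, map_div₀, h1, h1]

/-- the Gauss ring is integral over `𝒪 ∩ K(x)` when the residue degree is the generic degree -/
theorem ihbt_isIntegral (hV : IhbtUnit d) (hxb : Transcendental k (d.res ⟨x, hxO⟩))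
    [FiniteDimensional ↥K⟮x⟯ F]
    (hdeg : Module.finrank ↥K⟮x⟯ F = Module.finrank ↥k⟮d.res ⟨x, hxO⟩⟯ Fb)
    {f : F} (hf : f ∈ d.Ov) : IsIntegral ↥(d.Ov ⊓ K⟮x⟯.toSubring) f := by
  classical
  set xb := d.res ⟨x, hxO⟩ with hxbdef
  set n := Module.finrank ↥k⟮xb⟯ Fb with hn
  have hnpos : 0 < n := by
    rw [← hdeg]
    exact Module.finrank_pos
  haveI : Module.Finite ↥k⟮xb⟯ Fb := Module.finite_of_finrank_pos hnpos
  let B : Module.Basis (Fin n) ↥k⟮xb⟯ Fb := Module.finBasis _ _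
  choose ω hω using fun i => d.res_surj (B i)
  have hli : LinearIndependent ↥k⟮xb⟯ (fun i => d.res (ω i)) := by
    have : (fun i => d.res (ω i)) = B := funext hω
    rw [this]
    exact B.linearIndependent
  have hcard : Fintype.card (Fin n) = Module.finrank ↥K⟮x⟯ F := by
    rw [Fintype.card_fin, hdeg]
  set R : Subring F := d.Ov ⊓ K⟮x⟯.toSubring with hR
  set N : Submodule ↥R F := Submodule.span ↥R (Set.range fun i => ((ω i : ↥d.Ov) : F)) with hN
  have hNO : ∀ y ∈ N, y ∈ d.Ov := by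
    intro y hy
    induction hy using Submodule.span_induction with
    | mem y hy =>
      obtain ⟨i, rfl⟩ := hy
      exact (ω i).2
    | zero => exact d.Ov.zero_mem
    | add y z _ _ hy hz => exact d.Ov.add_mem hy hz
    | smul r y _ hy => exact d.Ov.mul_mem (Subring.mem_inf.mp r.2).1 hy
  have hON : ∀ y ∈ d.Ov, y ∈ N := by
    intro y hy
    obtain ⟨c, hc, hyc⟩ := ihbt_exists_coord hxO hV hxb ω hli hcard ⟨y, hy⟩
    have : y = ∑ i, (⟨c i, Subring.mem_inf.mpr ⟨(hc i).1, (hc i).2⟩⟩ : ↥R) • ((ω i : ↥d.Ov) : F) := by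
      rw [show y = ∑ i, c i * ((ω i : ↥d.Ov) : F) from hyc]
      rfl
    rw [this]
    exact Submodule.sum_mem _ fun i _ =>
      Submodule.smul_mem _ _ (Submodule.subset_span ⟨i, rfl⟩)
  refine isIntegral_of_smul_mem_submodule N ?_ (Submodule.fg_span (Set.finite_range _)) f ?_
  · intro h0
    have h1 : (1 : F) ∈ N := hON 1 d.Ov.one_mem
    rw [h0, Submodule.mem_bot] at h1
    exact one_ne_zero h1
  · intro y hy
    exact hON _ (d.Ov.mul_mem hf (hNO y hy))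

/-- **an automorphism fixing the coordinate preserves the Gauss ring** -/
theorem ihbt_stable (hV : IhbtUnit d) (hxb : Transcendental k (d.res ⟨x, hxO⟩))
    [FiniteDimensional ↥K⟮x⟯ F]
    (hdeg : Module.finrank ↥K⟮x⟯ F = Module.finrank ↥k⟮d.res ⟨x, hxO⟩⟯ Fb)
    (g : F ≃ₐ[K] F) (hgx : g x = x) {f : F} (hf : f ∈ d.Ov) : g f ∈ d.Ov := by
  have hint := ihbt_isIntegral hxO hV hxb hdeg hf
  have hint' : IsIntegral ↥(d.Ov ⊓ K⟮x⟯.toSubring) (g f) := by
    refine IsIntegral.map_of_comp_eq (RingHom.id _) (g : F →+* F) ?_ hint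
    ext r
    show ((r : ↥(d.Ov ⊓ K⟮x⟯.toSubring)) : F) = g ((r : ↥(d.Ov ⊓ K⟮x⟯.toSubring)) : F)
    exact (ihbt_fix_adjoin g hgx (Subring.mem_inf.mp r.2).2).symm
  exact ihbt_mem_of_isIntegral hV (fun r => (Subring.mem_inf.mp r.2).1) hint'

end Stable

section Bar

/-- the restriction of a stable automorphism to the Gauss ring -/
def ihbtRestr (g : F ≃ₐ[K] F) (hg : ∀ f ∈ d.Ov, g f ∈ d.Ov) : ↥d.Ov →+* ↥d.Ov where
  toFun f := ⟨g (f : F), hg _ f.2⟩
  map_one' := Subtype.ext (map_one g)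
  map_mul' a b := Subtype.ext (map_mul g (a : F) (b : F))
  map_zero' := Subtype.ext (map_zero g)
  map_add' a b := Subtype.ext (map_add g (a : F) (b : F))

theorem ihbt_ker_le (hV : IhbtUnit d) (g : F ≃ₐ[K] F) (hg : ∀ f ∈ d.Ov, g f ∈ d.Ov)
    (hg' : ∀ f ∈ d.Ov, g.symm f ∈ d.Ov) :
    RingHom.ker d.res ≤ RingHom.ker (d.res.comp (ihbtRestr g hg)) := by
  intro f hf
  rw [RingHom.mem_ker] at hf ⊢
  by_contra h0
  have h1 : d.res ⟨g (f : F), hg _ f.2⟩ ≠ 0 := h0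
  have h2 : (g (f : F))⁻¹ ∈ d.Ov := hV _ _ h1
  have h3 := hg' _ h2
  rw [map_inv₀, AlgEquiv.symm_apply_apply] at h3
  have hf0 : (f : F) ≠ 0 := by
    intro h
    apply h1
    have : (⟨g (f : F), hg _ f.2⟩ : ↥d.Ov) = 0 :=
      Subtype.ext (show g (f : F) = 0 by rw [h, map_zero])
    rw [this, map_zero]
  exact ihbt_res_ne_zero_of_inv_mem f.2 hf0 h3 hf

/-- the ring endomorphism of the residue field induced by a stable automorphism -/
noncomputable def ihbtBarHom (hV : IhbtUnit d) (g : F ≃ₐ[K] F) (hg : ∀ f ∈ d.Ov, g f ∈ d.Ov)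
    (hg' : ∀ f ∈ d.Ov, g.symm f ∈ d.Ov) : Fb →+* Fb :=
  RingHom.liftOfSurjective d.res d.res_surj
    ⟨d.res.comp (ihbtRestr g hg), ihbt_ker_le hV g hg hg'⟩

theorem ihbtBarHom_res (hV : IhbtUnit d) (g : F ≃ₐ[K] F) (hg : ∀ f ∈ d.Ov, g f ∈ d.Ov)
    (hg' : ∀ f ∈ d.Ov, g.symm f ∈ d.Ov) (f : ↥d.Ov) :
    ihbtBarHom hV g hg hg' (d.res f) = d.res ⟨g (f : F), hg _ f.2⟩ :=
  RingHom.liftOfRightInverse_comp_apply d.res _ _ _ f

/-- **the automorphism of the residue field induced by a stable automorphism** -/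
theorem ihbt_exists_bar (hV : IhbtUnit d) (g : F ≃ₐ[K] F) (hg : ∀ f ∈ d.Ov, g f ∈ d.Ov)
    (hg' : ∀ f ∈ d.Ov, g.symm f ∈ d.Ov) :
    ∃ gb : Fb ≃ₐ[k] Fb, ∀ (f : F) (hf : f ∈ d.Ov),
      gb (d.res ⟨f, hf⟩) = d.res ⟨g f, hg f hf⟩ := by
  have hsymm : ∀ f ∈ d.Ov, g.symm.symm f ∈ d.Ov := fun f hf => hg f hf
  set φ := ihbtBarHom hV g hg hg' with hφ
  set ψ := ihbtBarHom hV g.symm hg' hsymm with hψ
  have h1 : ∀ t : Fb, ψ (φ t) = t := by
    intro t
    obtain ⟨f, rfl⟩ := d.res_surj t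
    rw [hφ, ihbtBarHom_res, hψ, ihbtBarHom_res]
    congr 1
    exact Subtype.ext (g.symm_apply_apply _)
  have h2 : ∀ t : Fb, φ (ψ t) = t := by
    intro t
    obtain ⟨f, rfl⟩ := d.res_surj t
    rw [hψ, ihbtBarHom_res, hφ, ihbtBarHom_res]
    congr 1
    exact Subtype.ext (g.apply_symm_apply _)
  have h3 : ∀ c : k, φ (algebraMap k Fb c) = algebraMap k Fb c := by
    intro c
    obtain ⟨a, rfl⟩ := d.resA_surj c
    rw [← d.res_algebraMap a, hφ, ihbtBarHom_res]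
    congr 1
    exact Subtype.ext (g.commutes _)
  refine ⟨AlgEquiv.ofRingEquiv (f := RingEquiv.ofRingHom φ ψ (RingHom.ext h2) (RingHom.ext h1)) h3,
    fun f hf => ?_⟩
  exact ihbtBarHom_res hV g hg hg' ⟨f, hf⟩

end Bar

end Fermat.Agent.Ihara
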