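/-
IHARA / B / (q3) (lead), part 2: under good reduction (`T3aGood`) and the unit property (`IhbtUnit`),
an automorphism `g` of `F / K` fixing the coordinate induces an automorphism `gb` of `F̄ / k` and
the pair is `T3bCompat`.
-/
import Mathlib
import Fermat.Agent.Lib.Ihara.B.Tau.Stable
import Fermat.Agent.Lib.T3.Gal.Abs
import Fermat.Agent.Lib.T3.Red.Good

set_option autoImplicit false
set_option linter.style.haveILetI false
set_option linter.unusedSectionVars false
set_option linter.unusedVariables false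

namespace Fermat.Agent.Ihara

open IntermediateField Polynomial Fermat.Agent.T1 Fermat.Agent.T3 AlgebraicCurve Fermat.Agent.Curve

variable {K F k Fb : Type*} [Field K] [Field F] [Algebra K F] [Field k] [Field Fb] [Algebra k Fb]
variable {d : TbBase K F k Fb}

/-- **stability of the Gauss ring under good reduction** -/
theorem ihbt_stable_of_good {ℓ : ℕ} {x : F} (hgood : T3aGood d ℓ x) (hV : IhbtUnit d)
    (g : F ≃ₐ[K] F) (hgx : g x = x) {f : F} (hf : f ∈ d.Ov) : g f ∈ d.Ov := by
  haveI := hgood.gen.finite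
  exact ihbt_stable hgood.hxO hV hgood.genb.transcendental hgood.deg g hgx hf

/-- **the induced automorphism of the residue field and the compatibility** -/
theorem ihbt_compat_of_good {ℓ : ℕ} {x : F} (hgood : T3aGood d ℓ x) (hV : IhbtUnit d)
    (g : F ≃ₐ[K] F) (hgx : g x = x) :
    ∃ gb : Fb ≃ₐ[k] Fb,
      T3bCompat d x (SemilinearAut.ofAlgAut g) (SemilinearAut.ofAlgAut gb) ∧
      ∀ (f : F) (hf : f ∈ d.Ov) (hgf : g f ∈ d.Ov), gb (d.res ⟨f, hf⟩) = d.res ⟨g f, hgf⟩ := by
  have hg : ∀ f ∈ d.Ov, g f ∈ d.Ov := fun f hf => ihbt_stable_of_good hgood hV g hgx hf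
  have hgx' : g.symm x = x := by
    rw [AlgEquiv.symm_apply_eq, hgx]
  have hg' : ∀ f ∈ d.Ov, g.symm f ∈ d.Ov :=
    fun f hf => ihbt_stable_of_good hgood hV g.symm hgx' hf
  obtain ⟨gb, hgb⟩ := ihbt_exists_bar hV g hg hg'
  refine ⟨gb, ?_, fun f hf hgf => hgb f hf⟩
  exact
    { mapA := fun a ha => ha
      mapA_symm := fun a ha => ha
      resA := fun a ha => rfl
      mapOv := fun f hf => hg f hf
      mapOv_symm := fun f hf => hg' f hf
      res := fun f hf => (hgb f hf).symm
      fix := hgx }

end Fermat.Agent.Ihara
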