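/-
IHARA / B / (q3) (architect helper4): **the involution of `X₀(2M) / X₀(M)`** (`2 ∣ M`) **and its
reduction**, the literal interface.

`M` even, `K = M * 2` (so `4 ∣ K`: rigid), `𝔓 | q`, `q ∤ K`.  `F_K / F_M` is a quadratic extension of
function fields over `ℚ̄`; `τ` its non-trivial automorphism.  Because
`[F_K : ℚ̄(j)] = [F̄_K : κ(j̄)]`, the Gauss ring `𝒪_K` is integral over `𝒪_K ∩ ℚ̄(j)`, hence every
`ℚ̄(j)`-automorphism of `F_K` preserves `𝒪_K` and induces a `κ`-automorphism `τ̄` of `F̄_K = tbBarF 𝔓 K`,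
which fixes `tbBarF 𝔓 M` (generated by the reductions of the `j(q^d)`, `d ∣ M`).  The pair is
`T3bCompat`, so `t3aRed (τ • x) = τ̄ • t3aRed x` (`t3b_t3aRed_smul`).  On divisors
`1 + τ = π^* π_*`, so `x + τ • x` comes from the level `M`.

Consumer ((B3), `Lib/Ihara/B/Cmp/`): for a Kummer class `x̄ = [div ȳ / p]` with `ȳ ∈ tbBarF 𝔓 M`,
`τ̄ • x̄ = x̄`; lift `x̄ = R x`; then `2 x̄ = R (x + τ • x) = R (π^* z)` with `z ∈ J₀(M)(ℚ̄)`, where the
`h/m`-trick applies with the hypothesis at the (non-rigid) level `M`.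
-/
import Mathlib
import Fermat.Agent.Lib.Ihara.B.Defs
import Fermat.Agent.Lib.T3.Gal.Pic

set_option autoImplicit false
set_option linter.unusedSectionVars false
set_option linter.unusedVariables false
set_option linter.style.haveILetI false
set_option synthInstance.maxHeartbeats 400000

namespace Fermat.Agent.Ihara

open ModularCurve Fermat.Agent.T1 Fermat.Agent.T2 Fermat.Agent.TW Fermat.Agent.Delta
  Fermat.Agent.S33 Fermat.Agent.S05Lib AlgebraicCurve Fermat.Agent.Curve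
  Fermat.Agent.T3 Fermat.Agent.Alpha ModularFormClass CongruenceSubgroup Fermat.Agent.S24Lib

local notation "Qb" => AlgebraicClosure ℚ
local notation "GQ" => (AlgebraicClosure ℚ ≃ₐ[ℚ] AlgebraicClosure ℚ)

noncomputable section

attribute [local instance] s33g_neZero

/-- **(q3)**: the involution `τ` of `F_{2M} / F_M`, its reduction `τ̄`, their compatibility with the
reduction theory at the rigid level `2M`, and `1 + τ = π^* π_*` on `J₀(2M)(ℚ̄)` -/
def IhbtInvol (𝔓 : FFPlace) (M : ℕ) [NeZero M] (hK : ¬ 𝔓.p ∣ M * 2) : Prop :=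
  ∃ (τ : ↥(modularFunctionFieldBar (M * 2)) ≃ₐ[Qb] ↥(modularFunctionFieldBar (M * 2)))
    (τb : ↥(tbBarF 𝔓 (M * 2)) ≃ₐ[IsLocalRing.ResidueField ↥𝔓.P] ↥(tbBarF 𝔓 (M * 2))),
    T3bCompat (t3aBase 𝔓 (M * 2) hK) (tbJ (M * 2)) (SemilinearAut.ofAlgAut τ)
      (SemilinearAut.ofAlgAut τb) ∧
    (∀ f : ↥(tbBarF 𝔓 (M * 2)),
      ((f : LaurentSeries (IsLocalRing.ResidueField ↥𝔓.P)) ∈ tbBarF 𝔓 M) → τb f = f) ∧
    (∀ x : JZero (M * 2), ∃ z : JZero M,
      dlwPullDvd (Dvd.intro 2 rfl : M ∣ M * 2) z = x + SemilinearAut.ofAlgAut τ • x)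

/-- (q3) at all even levels -/
def IhbtInvolAll : Prop :=
  ∀ (𝔓 : FFPlace) (M : ℕ) [NeZero M], 2 ∣ M → ∀ hK : ¬ 𝔓.p ∣ M * 2, IhbtInvol 𝔓 M hK

end

end Fermat.Agent.Ihara
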