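/-
IHARA / B / (q3) (lead), part 4: **`π^* π_* = 1 + τ` on divisors for a quadratic covering**.

`φ : F → F'` of degree `2`, all places of degree one, `τ` an automorphism of `F'` over `φ F` such that
two places of `F'` with the same restriction to `F` are equal or `τ`-conjugate.  Then
`pullbackAlong φ (pushforwardAlong φ D) = D + τ • D` for all divisors `D` of `F'`.
-/
import Mathlib
import Fermat.Prelude.Def_AlgebraicCurve_Correspondence
import Fermat.Agent.Lib.T3.Pull.Functor

set_option autoImplicit false
set_option linter.style.haveILetI false
set_option linter.unusedSectionVars false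
set_option linter.unusedVariables false

namespace Fermat.Agent.Ihara

open AlgebraicCurve Fermat.Agent.T3

variable {K F F' : Type*} [Field K] [Field F] [Field F'] [Algebra K F] [Algebra K F']
  [HasPrincipalDivisors K F']

section

variable (φ : F →ₐ[K] F') (hφ : φ.toRingHom.IsIntegral)

include hφ in
theorem ihbt_ramificationIndexAlong_pos (w : Place K F') : 0 < w.ramificationIndexAlong φ := by
  letI := algebraAlong φ
  haveI := isScalarTower_along φ
  haveI := isIntegral_along φ hφ
  exact w.ramificationIndex_pos (F := F)

/-- the fundamental identity in the `Along` form, all degrees being one -/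
theorem ihbt_sum_ramificationIndexAlong (hFI : FundamentalIdentityAlong K φ hφ)
    (hdeg' : ∀ w : Place K F', w.deg = 1) (hdeg : ∀ v : Place K F, v.deg = 1) (v : Place K F) :
    ∑ w ∈ Place.fiberAlong φ hφ v, (w.ramificationIndexAlong φ : ℤ) = finrankAlong K φ := by
  letI := algebraAlong φ
  haveI := isScalarTower_along φ
  haveI := isIntegral_along φ hφ
  haveI : FundamentalIdentity K F F' := hFI
  have h := FundamentalIdentity.sum_ramificationIndex_mul_deg (K := K) (F := F) (F' := F') v
  rw [hdeg v, Nat.cast_one, mul_one] at h
  rw [← Finset.sum_congr rfl (fun w _ => by rw [hdeg' w, Nat.cast_one, mul_one])] at h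
  exact h

end

/-- **`π^* π_* = 1 + τ`** -/
theorem ihbt_pull_push (φ : F →ₐ[K] F') (hφ : φ.toRingHom.IsIntegral)
    (hFI : FundamentalIdentityAlong K φ hφ) (h2 : finrankAlong K φ = 2)
    (hdeg' : ∀ w : Place K F', w.deg = 1) (hdeg : ∀ v : Place K F, v.deg = 1)
    (hf : ∀ w : Place K F', w.inertiaDegAlong φ hφ = 1)
    (τ : SemilinearAut K F')
    (hτ : ∀ w : Place K F', (τ • w).restrictAlong φ hφ = w.restrictAlong φ hφ)
    (htrans : ∀ w w' : Place K F', w'.restrictAlong φ hφ = w.restrictAlong φ hφ →
      w' = w ∨ w' = τ • w)
    (D : Divisor K F') :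
    Divisor.pullbackAlong φ hφ (Divisor.pushforwardAlong φ hφ D) = D + τ • D := by
  classical
  have key : (Divisor.pullbackAlong φ hφ).comp (Divisor.pushforwardAlong φ hφ)
      = AddMonoidHom.id _ + DistribSMul.toAddMonoidHom (Divisor K F') τ := by
    apply Finsupp.addHom_ext
    intro w n
    show Divisor.pullbackAlong φ hφ (Divisor.pushforwardAlong φ hφ (Finsupp.single w n))
      = Finsupp.single w n + τ • (Finsupp.single w n : Divisor K F')
    rw [Divisor.pushforwardAlong_single, hf, Nat.cast_one, mul_one,
      Divisor.pullbackAlong_single, SemilinearAut.smul_single]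
    set v := w.restrictAlong φ hφ with hv
    have hsum := ihbt_sum_ramificationIndexAlong φ hφ hFI hdeg' hdeg v
    rw [h2] at hsum
    have hw : w ∈ Place.fiberAlong φ hφ v := Place.mem_fiberAlong.mpr rfl
    have hτw : τ • w ∈ Place.fiberAlong φ hφ v := Place.mem_fiberAlong.mpr (hτ w)
    by_cases hfix : τ • w = w
    · have hfib : Place.fiberAlong φ hφ v = {w} := by
        ext w'
        rw [Finset.mem_singleton, Place.mem_fiberAlong]
        constructor
        · intro h
          rcases htrans w w' h with h1 | h1
          · exact h1
          · rw [h1, hfix]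
        · rintro rfl
          rfl
      rw [hfib, Finset.sum_singleton] at hsum ⊢
      rw [hfix, hsum, ← Finsupp.single_add]
      congr 1
      push_cast
      ring
    · have hfib : Place.fiberAlong φ hφ v = {w, τ • w} := by
        ext w'
        rw [Finset.mem_insert, Finset.mem_singleton, Place.mem_fiberAlong]
        constructor
        · intro h
          exact htrans w w' h
        · rintro (rfl | rfl)
          · rfl
          · exact hτ w
      have hne : w ≠ τ • w := fun h => hfix h.symm
      rw [hfib, Finset.sum_pair hne] at hsum ⊢
      have h1 := ihbt_ramificationIndexAlong_pos φ hφ w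
      have h2' := ihbt_ramificationIndexAlong_pos φ hφ (τ • w)
      have e1 : (w.ramificationIndexAlong φ : ℤ) = 1 := by omega
      have e2 : ((τ • w).ramificationIndexAlong φ : ℤ) = 1 := by omega
      rw [e1, e2, mul_one]
  exact DFunLike.congr_fun key D

end Fermat.Agent.Ihara
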