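/-
IHARA / B / (q3) (lead), part 3: the modular instance.  The Gauss ring of `F_K` has the unit property;
`[F_{2M} : F_M] = 2` for even `M`; the involution `τ` of `F_{2M} / F_M`.
-/
import Mathlib
import Fermat.Agent.Lib.Ihara.B.Tau.Compat
import Fermat.Agent.Lib.Ihara.B.Tau.Defs
import Fermat.Agent.Lib.Ihara.B.Tau.Quad
import Fermat.Agent.Lib.T3.Hecke.Emb
import Fermat.Agent.Lib.Curve.GaloisPlaces

set_option autoImplicit false
set_option linter.unusedSectionVars false
set_option linter.unusedVariables false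
set_option linter.style.haveILetI false
set_option synthInstance.maxHeartbeats 400000

namespace Fermat.Agent.Ihara

open ModularCurve Fermat.Agent.T1 Fermat.Agent.T2 Fermat.Agent.TW Fermat.Agent.Delta
  Fermat.Agent.S33 Fermat.Agent.S05Lib AlgebraicCurve Fermat.Agent.Curve
  Fermat.Agent.T3 Fermat.Agent.Alpha ModularFormClass CongruenceSubgroup Fermat.Agent.S24Lib

local notation "Qb" => AlgebraicClosure ℚ
local notation "GQ" => (AlgebraicClosure ℚ ≃ₐ[ℚ] AlgebraicClosure ℚ)

noncomputable section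

attribute [local instance] s33g_neZero

/-- the Gauss ring of the modular function field has the unit property -/
theorem ihbt_unit_modular (𝔓 : FFPlace) (K : ℕ) [NeZero K] (hK : ¬ 𝔓.p ∣ K) :
    IhbtUnit (t3aBase 𝔓 K hK) := by
  intro f hf hres
  have h0 : tbRhoFun 𝔓.P (IsLocalRing.residue ↥𝔓.P) (f : LaurentSeries Qb) ≠ 0 := by
    intro h
    apply hres
    apply Subtype.ext
    exact h
  have h1 := tbGauss_inv 𝔓.P (IsLocalRing.residue ↥𝔓.P) hf h0
  show TbGauss 𝔓.P (IsLocalRing.residue ↥𝔓.P) ((f⁻¹ : ↥(modularFunctionFieldBar K)) : LaurentSeries Qb)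
  exact h1

section Invol

variable (M : ℕ) [NeZero M]

/-- `[F_{2M} : F_M] = 2` for even `M` -/
theorem ihbt_finrank (h2M : 2 ∣ M) : finrankAlong Qb (heckeAlphaBar Qb M 2) = 2 := by
  letI := algebraAlong (heckeAlphaBar Qb M 2)
  show Module.finrank ↥(modularFunctionFieldBar M) ↥(modularFunctionFieldBar (M * 2)) = 2
  set K₀ : IntermediateField Qb ↥(modularFunctionFieldBar M) :=
    IntermediateField.adjoin Qb {jBar M} with hK₀
  letI : Algebra K₀ ↥(modularFunctionFieldBar (M * 2)) :=
    ((heckeAlphaBar Qb M 2).toRingHom.comp (algebraMap K₀ ↥(modularFunctionFieldBar M))).toAlgebra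
  haveI : IsScalarTower K₀ ↥(modularFunctionFieldBar M) ↥(modularFunctionFieldBar (M * 2)) :=
    IsScalarTower.of_algebraMap_eq (fun _ => rfl)
  have h1 : Module.finrank K₀ ↥(modularFunctionFieldBar M)
      * Module.finrank ↥(modularFunctionFieldBar M) ↥(modularFunctionFieldBar (M * 2))
      = Module.finrank K₀ ↥(modularFunctionFieldBar (M * 2)) :=
    Module.finrank_mul_finrank K₀ _ _
  have hmap : K₀.map (heckeAlphaBar Qb M 2) = IntermediateField.adjoin Qb {jBar (M * 2)} := by
    rw [hK₀, IntermediateField.adjoin_map, Set.image_singleton, t3k_alpha_jBar]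
  let i : K₀ ≃ₐ[Qb] ↥(IntermediateField.adjoin Qb {jBar (M * 2)}) :=
    (K₀.equivMap (heckeAlphaBar Qb M 2)).trans (IntermediateField.equivOfEq hmap)
  have h2 : Module.finrank K₀ ↥(modularFunctionFieldBar (M * 2))
      = Module.finrank ↥(IntermediateField.adjoin Qb {jBar (M * 2)})
        ↥(modularFunctionFieldBar (M * 2)) := by
    refine Algebra.finrank_eq_of_equiv_equiv i.toRingEquiv (RingEquiv.refl _) ?_
    ext z
    rfl
  rw [h2, finrank_jBar, finrank_jBar,
    Fermat.Agent.Igusa.igPsi_mul_prime_of_dvd Nat.prime_two (NeZero.ne M) h2M] at h1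
  have hpos : 0 < dedekindPsi M := Fermat.Agent.Igusa.igPsi_pos (NeZero.ne M)
  exact Nat.eq_of_mul_eq_mul_left hpos h1

/-- the two actions of an automorphism on places agree -/
theorem ihbt_ofAlgAut_smul_place {K F : Type*} [Field K] [Field F] [Algebra K F] (σ : F ≃ₐ[K] F)
    (v : Place K F) : SemilinearAut.ofAlgAut σ • v = σ • v := by
  apply Place.ext
  ext x
  rw [SemilinearAut.smul_toValuationSubring, Place.smul_toValuationSubring,
    ValuationSubring.mem_pointwise_smul_iff_inv_smul_mem,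
    ValuationSubring.mem_pointwise_smul_iff_inv_smul_mem]
  rfl

/-- **the involution of `F_{2M} / F_M`** and the transitivity on the fibres -/
theorem ihbt_exists_tau (h2M : 2 ∣ M) :
    ∃ τ : ↥(modularFunctionFieldBar (M * 2)) ≃ₐ[Qb] ↥(modularFunctionFieldBar (M * 2)),
      (∀ y, τ (heckeAlphaBar Qb M 2 y) = heckeAlphaBar Qb M 2 y) ∧
      ∀ w w' : Place Qb ↥(modularFunctionFieldBar (M * 2)),
        w'.restrictAlong (heckeAlphaBar Qb M 2) (t3h_alphaIntegral M 2)
          = w.restrictAlong (heckeAlphaBar Qb M 2) (t3h_alphaIntegral M 2) →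
        w' = w ∨ w' = SemilinearAut.ofAlgAut τ • w := by
  letI := algebraAlong (heckeAlphaBar Qb M 2)
  haveI := isScalarTower_along (heckeAlphaBar Qb M 2)
  haveI := isIntegral_along (heckeAlphaBar Qb M 2) (t3h_alphaIntegral M 2)
  have hfr : Module.finrank ↥(modularFunctionFieldBar M) ↥(modularFunctionFieldBar (M * 2)) = 2 :=
    ihbt_finrank M h2M
  haveI : FiniteDimensional ↥(modularFunctionFieldBar M) ↥(modularFunctionFieldBar (M * 2)) :=
    Module.finite_of_finrank_pos (by rw [hfr]; norm_num)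
  haveI : Algebra.IsQuadraticExtension ↥(modularFunctionFieldBar M)
      ↥(modularFunctionFieldBar (M * 2)) := ⟨hfr⟩
  haveI : CharZero ↥(modularFunctionFieldBar M) :=
    charZero_of_injective_algebraMap (algebraMap Qb ↥(modularFunctionFieldBar M)).injective
  haveI : IsGalois ↥(modularFunctionFieldBar M) ↥(modularFunctionFieldBar (M * 2)) :=
    inferInstance
  have hcard : Nat.card (↥(modularFunctionFieldBar (M * 2)) ≃ₐ[↥(modularFunctionFieldBar M)]
      ↥(modularFunctionFieldBar (M * 2))) = 2 := by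
    rw [IsGalois.card_aut_eq_finrank, hfr]
  obtain ⟨τ', hτ'1, hτ'u⟩ := (Nat.card_eq_two_iff' (1 : ↥(modularFunctionFieldBar (M * 2))
    ≃ₐ[↥(modularFunctionFieldBar M)] ↥(modularFunctionFieldBar (M * 2)))).mp hcard
  refine ⟨τ'.restrictScalars Qb, fun y => τ'.commutes y, fun w w' h => ?_⟩
  have h' : Fermat.Agent.Curve.PlaceAux.restrict (F := ↥(modularFunctionFieldBar M)) w
      = Fermat.Agent.Curve.PlaceAux.restrict w' := by
    apply Place.ext
    have := congrArg Place.toValuationSubring h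
    exact this.symm
  obtain ⟨σ, hσ⟩ := Fermat.Agent.Curve.PlaceAux.exists_algEquiv_smul_eq_of_restrict_eq w w' h'
  by_cases hσ1 : σ = 1
  · left
    rw [hσ, hσ1]
    exact one_smul _ w
  · right
    rw [hσ, hτ'u σ hσ1, ihbt_ofAlgAut_smul_place]

end Invol

end

end Fermat.Agent.Ihara
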