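/-
IHARA / B / (q3) (lead), part 5: **`IhbtInvolAll`** — the involution `τ` of `X₀(2M) / X₀(M)` (`M` even),
its reduction `τ̄`, the compatibility `T3bCompat`, `τ̄ = 1` on `F̄_M`, and `1 + τ = π^* π_*` on
`J₀(2M)(ℚ̄)`.
-/
import Mathlib
import Fermat.Agent.Lib.Ihara.B.Tau.Modular
import Fermat.Agent.Lib.Delta.Wire.Push

set_option autoImplicit false
set_option linter.unusedSectionVars false
set_option linter.unusedVariables false
set_option linter.style.haveILetI false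
set_option synthInstance.maxHeartbeats 400000

namespace Fermat.Agent.Ihara

open ModularCurve Fermat.Agent.T1 Fermat.Agent.T2 Fermat.Agent.TW Fermat.Agent.Delta
  Fermat.Agent.S33 Fermat.Agent.S05Lib AlgebraicCurve Fermat.Agent.Curve
  Fermat.Agent.T3 Fermat.Agent.Alpha ModularFormClass CongruenceSubgroup Fermat.Agent.S24Lib

local notation "Qb" => AlgebraicClosure ℚ
local notation "GQ" => (AlgebraicClosure ℚ ≃ₐ[ℚ] AlgebraicClosure ℚ)

noncomputable section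

attribute [local instance] s33g_neZero

theorem ihbt_mem_Ov_iff (𝔓 : FFPlace) (K : ℕ) [NeZero K] (hK : ¬ 𝔓.p ∣ K)
    (f : ↥(modularFunctionFieldBar K)) :
    f ∈ (t3aBase 𝔓 K hK).Ov ↔
      TbGauss 𝔓.P (IsLocalRing.residue ↥𝔓.P) (f : LaurentSeries Qb) := Iff.rfl

theorem ihbt_coe_res (𝔓 : FFPlace) (K : ℕ) [NeZero K] (hK : ¬ 𝔓.p ∣ K)
    (f : ↥(modularFunctionFieldBar K)) (hf : f ∈ (t3aBase 𝔓 K hK).Ov) :
    (((t3aBase 𝔓 K hK).res ⟨f, hf⟩ : ↥(tbBarF 𝔓 K)) :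
      LaurentSeries (IsLocalRing.ResidueField ↥𝔓.P)) =
      tbRhoFun 𝔓.P (IsLocalRing.residue ↥𝔓.P) (f : LaurentSeries Qb) := rfl

section General

variable {K F F' : Type*} [Field K] [Field F] [Field F'] [Algebra K F] [Algebra K F']
  [HasPrincipalDivisors K F']

/-- `π^* π_* = 1 + τ` on `Pic⁰` -/
theorem ihbt_pull_push_pic0 (φ : F →ₐ[K] F') (hφ : φ.toRingHom.IsIntegral)
    (hFI : FundamentalIdentityAlong K φ hφ) (hfin : FiniteAlong K φ)
    (hN : NormFormulaAlong K φ hfin) (h2 : finrankAlong K φ = 2)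
    (hdeg' : ∀ w : Place K F', w.deg = 1) (hdeg : ∀ v : Place K F, v.deg = 1)
    (hf : ∀ w : Place K F', w.inertiaDegAlong φ hφ = 1)
    (τ : SemilinearAut K F')
    (hτ : ∀ w : Place K F', (τ • w).restrictAlong φ hφ = w.restrictAlong φ hφ)
    (htrans : ∀ w w' : Place K F', w'.restrictAlong φ hφ = w.restrictAlong φ hφ →
      w' = w ∨ w' = τ • w)
    (x : Pic0 K F') :
    t3pPullAlong φ hφ hFI (dlwPushAlong φ hφ hfin hN x) = x + τ • x := by
  obtain ⟨D, rfl⟩ := Pic0.mk_surjective x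
  rw [dlwPushAlong_mk, t3pPullAlong_mk, SemilinearAut.pic0_smul_mk, ← Pic0.mk_add]
  apply congrArg Pic0.mk
  apply Subtype.ext
  exact ihbt_pull_push φ hφ hFI h2 hdeg' hdeg hf τ hτ htrans (D : Divisor K F')

end General

/-- **(q3)** -/
theorem ihbt_invol (𝔓 : FFPlace) (M : ℕ) [NeZero M] (h2M : 2 ∣ M) (hK : ¬ 𝔓.p ∣ M * 2) :
    IhbtInvol 𝔓 M hK := by
  obtain ⟨τ, hτφ, htrans⟩ := ihbt_exists_tau M h2M
  have h4 : 4 ∣ M * 2 := by
    obtain ⟨c, rfl⟩ := h2M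
    exact ⟨c, by ring⟩
  have hM : ¬ 𝔓.p ∣ M := fun h => hK (h.mul_right 2)
  have hgood : T3aGood (t3aBase 𝔓 (M * 2) hK) 𝔓.p (tbJ (M * 2)) :=
    t3a_good_modular 𝔓 (M * 2) (Or.inl h4) hK
  have hV := ihbt_unit_modular 𝔓 (M * 2) hK
  have hJ : heckeAlphaBar Qb M 2 (tbJ M) = tbJ (M * 2) := Subtype.ext rfl
  have hτJ : τ (tbJ (M * 2)) = tbJ (M * 2) := by rw [← hJ, hτφ]
  obtain ⟨τb, hcompat, hτb⟩ := ihbt_compat_of_good hgood hV τ hτJ
  refine ⟨τ, τb, hcompat, ?_, ?_⟩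
  · -- `τ̄` fixes the reductions of the functions of level `M`
    intro f hf
    obtain ⟨g, hg⟩ := (t3aBase 𝔓 M hM).res_surj ⟨(f : LaurentSeries _), hf⟩
    have hgM : TbGauss 𝔓.P (IsLocalRing.residue ↥𝔓.P)
        ((g : ↥(modularFunctionFieldBar M)) : LaurentSeries Qb) :=
      (ihbt_mem_Ov_iff 𝔓 M hM _).mp g.2
    have hgO : heckeAlphaBar Qb M 2 (g : ↥(modularFunctionFieldBar M)) ∈
        (t3aBase 𝔓 (M * 2) hK).Ov := by
      rw [ihbt_mem_Ov_iff, coe_heckeAlphaBar]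
      exact hgM
    have hres : (t3aBase 𝔓 (M * 2) hK).res ⟨heckeAlphaBar Qb M 2 (g : ↥(modularFunctionFieldBar M)),
        hgO⟩ = f := by
      apply Subtype.ext
      rw [ihbt_coe_res, coe_heckeAlphaBar, ← ihbt_coe_res 𝔓 M hM _ g.2]
      exact congrArg Subtype.val hg
    have hτg : τ (heckeAlphaBar Qb M 2 (g : ↥(modularFunctionFieldBar M))) ∈
        (t3aBase 𝔓 (M * 2) hK).Ov := by
      rw [hτφ]
      exact hgO
    have h1 := hτb _ hgO hτg
    rw [hres] at h1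
    rw [h1, ← hres]
    exact congrArg _ (Subtype.ext (hτφ _))
  · -- `1 + τ = π^* π_*`
    intro x
    refine ⟨dlwPushA M 2 x, ?_⟩
    have hinter : SemilinearAut.IntertwinesAlong (heckeAlphaBar Qb M 2).toRingHom
        (1 : SemilinearAut Qb ↥(modularFunctionFieldBar M)) (SemilinearAut.ofAlgAut τ) := by
      intro y
      rw [one_smul]
      exact hτφ y
    have hτr : ∀ w : Place Qb ↥(modularFunctionFieldBar (M * 2)),
        (SemilinearAut.ofAlgAut τ • w).restrictAlong (heckeAlphaBar Qb M 2) (t3h_alphaIntegral M 2)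
          = w.restrictAlong (heckeAlphaBar Qb M 2) (t3h_alphaIntegral M 2) := by
      intro w
      rw [t3p_restrictAlong_smul _ _ hinter, one_smul]
    exact ihbt_pull_push_pic0 (heckeAlphaBar Qb M 2) (t3h_alphaIntegral M 2)
      (t3h_alphaFundamental M 2) (t3h_alphaFinite M 2) (t3h_alphaNorm M 2) (ihbt_finrank M h2M)
      (fun w => Fermat.Agent.Curve.PlaceAux.deg_eq_one (t3h_gen (M * 2)) w)
      (fun v => Fermat.Agent.Curve.PlaceAux.deg_eq_one (t3h_gen M) v)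
      (fun w => t3h_inertiaDegAlong_eq_one (t3h_gen (M * 2)) _ _ w)
      (SemilinearAut.ofAlgAut τ) hτr htrans x

/-- **(q3) at all even levels** -/
theorem ihbt_involAll : IhbtInvolAll :=
  fun 𝔓 M _ h2M hK => ihbt_invol 𝔓 M h2M hK

end

end Fermat.Agent.Ihara
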